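import Fermat.Agent.PicScheme.Abel.Pres

/-!
# Passing a presentation from one chart to the other
-/

set_option autoImplicit false

noncomputable section

universe u

namespace FLTAgent.PicScheme

namespace Pres

variable {R₀ R₁ R₂ : Type u} [CommRing R₀] [CommRing R₁] [CommRing R₂]

/-- A presentation gives one of the extended ideal. -/
theorem dvd_of_extension {r₁ : R₁ →+* R₀} {t₀ s₀ : R₀} (hts : t₀ * s₀ = 1)
    (hex : ∀ y, ∃ (N : ℕ) (x : R₁), t₀ ^ N * y = r₁ x) (J₀ : Ideal R₀) (p : Pres R₁)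
    (hp : ∀ m, ∀ x ∈ J₀.comap r₁, p.t m ∣ p.w m * x) (m : Fin p.n) {y : R₀} (hy : y ∈ J₀) :
    r₁ (p.t m) ∣ r₁ (p.w m) * y := by
  obtain ⟨N, x, hx⟩ := hex y
  have hxJ : x ∈ J₀.comap r₁ := Ideal.mem_comap.2 (hx ▸ J₀.mul_mem_left _ hy)
  obtain ⟨q, hq⟩ := hp m x hxJ
  refine ⟨r₁ q * s₀ ^ N, ?_⟩
  have h1 : (t₀ * s₀) ^ N = 1 := by rw [hts, one_pow]
  calc r₁ (p.w m) * y = r₁ (p.w m) * (t₀ ^ N * y) * s₀ ^ N := by
        rw [mul_pow] at h1; linear_combination -(r₁ (p.w m) * y) * h1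
    _ = r₁ (p.t m) * (r₁ q * s₀ ^ N) := by
        rw [hx, ← map_mul, hq, map_mul, mul_assoc]

/-- A presentation on the first chart gives one on the second, if an element of the ideal and
`G` generate the unit ideal. -/
theorem exists_transfer [IsNoetherianRing R₂] [IsDomain R₀] {r₁ : R₁ →+* R₀} {r₂ : R₂ →+* R₀}
    (i₁ : Function.Injective r₁) (i₂ : Function.Injective r₂) {t₀ : R₀} {G : R₂}
    (hts : t₀ * r₂ G = 1) (hex₁ : ∀ y, ∃ (N : ℕ) (x : R₁), t₀ ^ N * y = r₁ x)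
    (hex₂ : ∀ y, ∃ (N : ℕ) (x : R₂), r₂ G ^ N * y = r₂ x) (J₀ : Ideal R₀) (p : Pres R₁)
    (hpJ : ∀ m, r₁ (p.t m) ∈ J₀) (hp : ∀ m, ∀ x ∈ J₀.comap r₁, p.t m ∣ p.w m * x)
    {F : R₂} (hF : r₂ F ∈ J₀) (hF0 : F ≠ 0)
    (hFG : ∀ P : Ideal R₂, P.IsPrime → F ∈ P → G ∉ P) :
    ∃ q : Pres R₂, (∀ m, r₂ (q.t m) ∈ J₀) ∧ ∀ m, ∀ x ∈ J₀.comap r₂, q.t m ∣ q.w m * x := by
  classical
  refine exists_of_locally_principal (J₀.comap r₂) fun P hP => ?_
  by_cases hFP : F ∈ P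
  swap
  · exact ⟨F, hFP, F, hF, hF0, fun x _ => dvd_mul_right F x⟩
  have hGP := hFG P hP.isPrime hFP
  choose N W hW using fun m => hex₂ (r₁ (p.w m))
  choose M T hT using fun m => hex₂ (r₁ (p.t m))
  obtain ⟨m, hm⟩ : ∃ m, W m ∉ P := by
    by_contra! hall
    let K := ∑ m, N m
    have h1 : r₂ (G ^ K) = r₂ (∑ m, G ^ (K - N m) * W m) := by
      simp only [map_sum, map_mul, map_pow, ← hW, ← mul_assoc, ← pow_add]
      rw [Finset.sum_congr rfl fun m hm => by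
        rw [Nat.sub_add_cancel (Finset.single_le_sum (fun _ _ => Nat.zero_le _) hm : N m ≤ K)],
        ← Finset.mul_sum, ← map_sum, p.sum_w, map_one, mul_one]
    refine hGP (hP.isPrime.mem_of_pow_mem K ?_)
    rw [i₂ h1]
    exact Ideal.sum_mem _ fun m _ => Ideal.mul_mem_left _ _ (hall m)
  have hu : IsUnit (r₂ G) := IsUnit.of_mul_eq_one t₀ (by rw [mul_comm, hts])
  have hTJ : r₂ (T m) ∈ J₀ := hT m ▸ J₀.mul_mem_left _ (hpJ m)
  have hT0 : T m ≠ 0 := fun h => by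
    have h2 := hT m
    rw [h, map_zero, (hu.pow _).mul_right_eq_zero] at h2
    exact p.t_ne m (i₁ (h2.trans (map_zero r₁).symm))
  obtain ⟨gens, hgens⟩ := IsNoetherian.noetherian (J₀.comap r₂)
  have key : ∀ x ∈ J₀.comap r₂, ∃ L : ℕ, T m ∣ G ^ L * (W m * x) := by
    intro x hx
    obtain ⟨y, hy⟩ := dvd_of_extension hts hex₁ J₀ p hp m (Ideal.mem_comap.1 hx)
    obtain ⟨b, Q, hQ⟩ := hex₂ (y * r₂ G ^ (N m))
    refine ⟨b + M m, Q, i₂ ?_⟩
    simp only [map_mul, map_pow, ← hW m, ← hT m, ← hQ, pow_add]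
    linear_combination (r₂ G ^ b * r₂ G ^ M m * r₂ G ^ N m) * hy
  choose L hL using key
  let L₀ := gens.attach.sup fun x => L x.1 (hgens ▸ Submodule.subset_span x.2)
  refine ⟨G ^ L₀ * W m, fun h => ?_, T m, hTJ, hT0, fun x hx => ?_⟩
  · exact (hP.isPrime.mem_or_mem h).elim (fun h' => hGP (hP.isPrime.mem_of_pow_mem _ h')) hm
  rw [← hgens] at hx
  induction hx using Submodule.span_induction with
  | mem x hx =>
    have hxJ : x ∈ J₀.comap r₂ := hgens ▸ Submodule.subset_span hx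
    have hle : L x hxJ ≤ L₀ :=
      Finset.le_sup (f := fun x : gens => L x.1 (hgens ▸ Submodule.subset_span x.2))
        (Finset.mem_attach gens ⟨x, hx⟩)
    obtain ⟨d, hd⟩ := Nat.exists_eq_add_of_le hle
    rw [hd, pow_add]
    exact (hL x hxJ).trans ⟨G ^ d, by ring⟩
  | zero => rw [mul_zero]; exact dvd_zero _
  | add x y _ _ hx hy => rw [mul_add]; exact dvd_add hx hy
  | smul r x _ hx => rw [smul_eq_mul, mul_left_comm]; exact hx.mul_left r

/-- A presentation from a dual basis of a nonzero ideal. -/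
theorem exists_of_dual_basis [IsDomain R₁] {J : Ideal R₁} (hJ : J ≠ ⊥) {n : ℕ} (x : Fin n → J)
    (y : Fin n → J →ₗ[R₁] R₁) (h : ∀ z : J, ∑ j, y j z • x j = z) :
    ∃ p : Pres R₁, (∀ m, p.t m ∈ J) ∧ ∀ m, ∀ z ∈ J, p.t m ∣ p.w m * z := by
  classical
  obtain ⟨z₀, hz₀, hz0⟩ := Submodule.exists_mem_ne_zero_of_ne_bot hJ
  have sym : ∀ (j : Fin n) (a b : J), y j a * (b : R₁) = y j b * (a : R₁) := fun j a b => by
    have h1 : (b : R₁) • a = (a : R₁) • b := Subtype.ext (mul_comm _ _)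
    have h2 := congrArg (y j) h1
    rw [map_smul, map_smul, smul_eq_mul, smul_eq_mul] at h2
    linear_combination h2
  let s := Finset.univ.filter fun j => (x j : R₁) ≠ 0
  let e := s.equivFin
  have hsum : ∑ j, y j (x j) = 1 := by
    refine mul_right_cancel₀ hz0 ?_
    rw [one_mul, Finset.sum_mul]
    have h3 := congrArg Subtype.val (h ⟨z₀, hz₀⟩)
    simp only [AddSubmonoidClass.coe_finsetSum, SetLike.val_smul, smul_eq_mul] at h3
    exact (Finset.sum_congr rfl fun j _ => sym j (x j) ⟨z₀, hz₀⟩).trans h3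
  refine ⟨⟨s.card, fun i => x (e.symm i).1, fun i => y (e.symm i).1 (x (e.symm i).1),
    fun i => (Finset.mem_filter.1 (e.symm i).2).2, ?_⟩, fun i => (x (e.symm i).1).2,
    fun i z hz => ⟨y (e.symm i).1 ⟨z, hz⟩, ?_⟩⟩
  · rw [e.symm.sum_comp (fun j : s => y j.1 (x j.1)), Finset.sum_coe_sort s fun j => y j (x j)]
    refine (Finset.sum_subset (Finset.subset_univ _) fun j _ hj => ?_).trans hsum
    have hxj : x j = 0 := Subtype.ext (by simpa [s] using hj)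
    rw [hxj, map_zero]
  · exact (sym _ (x (e.symm i).1) ⟨z, hz⟩).trans (mul_comm _ _)

end Pres

end FLTAgent.PicScheme
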