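import Fermat.Agent.PicScheme.Abel.Gen
import Fermat.Agent.PicScheme.Abel.Transfer
import Fermat.Agent.PicScheme.Bridge
import Fermat.Agent.PicScheme.Chart.Diagonal

/-!
# The family of the points of the curve
-/

set_option autoImplicit false
set_option linter.style.haveILetI false

noncomputable section

universe u

open TensorProduct Matrix
open scoped TensorProduct

namespace FLTAgent.PicScheme

variable {k : Type u} [Field k]

namespace Charts

variable (X : Charts k) {A A' : Type u} [CommRing A] [Algebra k A] [CommRing A'] [Algebra k A']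

/-- Evaluation on the graph of `ψ`. -/
def graph (ψ : A →ₐ[k] X.B₀) : X.R₀ A →ₐ[k] X.B₀ :=
  Algebra.TensorProduct.lift ψ (AlgHom.id k X.B₀) fun _ _ => Commute.all _ _

/-- The ideal of the graph of `ψ` over the overlap. -/
def J₀ (ψ : A →ₐ[k] X.B₀) : Ideal (X.R₀ A) := RingHom.ker (X.graph ψ).toRingHom

/-- The ideal of the graph of `ψ` on the first chart. -/
def J₁ (ψ : A →ₐ[k] X.B₀) : Ideal (X.R₁ A) := (X.J₀ ψ).comap (X.res₁ A).toRingHom

/-- The ideal of the graph of `ψ` on the second chart. -/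
def J₂ (ψ : A →ₐ[k] X.B₀) : Ideal (X.R₂ A) := (X.J₀ ψ).comap (X.res₂ A).toRingHom

variable {X}

theorem mem_J₁ {ψ : A →ₐ[k] X.B₀} {x : X.R₁ A} :
    x ∈ X.J₁ ψ ↔ X.graph ψ (X.res₁ A x) = 0 := Iff.rfl

theorem mem_J₂ {ψ : A →ₐ[k] X.B₀} {x : X.R₂ A} :
    x ∈ X.J₂ ψ ↔ X.graph ψ (X.res₂ A x) = 0 := Iff.rfl

theorem graph_res₁_tmul (ψ : A →ₐ[k] X.B₀) (a : A) (b : X.B₁) :
    X.graph ψ (X.res₁ A (a ⊗ₜ b)) = ψ a * X.ι₁ b := by
  simp [graph, Charts.res₁]

theorem graph_res₂_tmul (ψ : A →ₐ[k] X.B₀) (a : A) (b : X.B₂) :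
    X.graph ψ (X.res₂ A (a ⊗ₜ b)) = ψ a * X.ι₂ b := by
  simp [graph, Charts.res₂]

theorem ι₁_injective : Function.Injective X.ι₁ := fun a b h => by
  have h1 := res₁_injective X k X.isFree (a₁ := (1 : k) ⊗ₜ a) (a₂ := (1 : k) ⊗ₜ b)
    (by simp [Charts.res₁, h])
  simpa using congrArg (Algebra.TensorProduct.lid k X.B₁) h1

theorem ι₂_injective : Function.Injective X.ι₂ := fun a b h => by
  have h1 := res₂_injective X k X.isFree (a₁ := (1 : k) ⊗ₜ a) (a₂ := (1 : k) ⊗ₜ b)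
    (by simp [Charts.res₂, h])
  simpa using congrArg (Algebra.TensorProduct.lid k X.B₂) h1

theorem finiteType₁ : Algebra.FiniteType k X.B₁ := by
  letI := (Polynomial.aeval (R := k) X.f).toRingHom.toAlgebra
  haveI : IsScalarTower k (Polynomial k) X.B₁ :=
    IsScalarTower.of_algebraMap_eq' (Polynomial.aeval (R := k) X.f).comp_algebraMap.symm
  haveI : Module.Finite (Polynomial k) X.B₁ := X.finite₁
  exact Algebra.FiniteType.trans (inferInstance : Algebra.FiniteType k (Polynomial k))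
    (inferInstance : Algebra.FiniteType (Polynomial k) X.B₁)

theorem finiteType₂ : Algebra.FiniteType k X.B₂ := by
  letI := (Polynomial.aeval (R := k) X.g).toRingHom.toAlgebra
  haveI : IsScalarTower k (Polynomial k) X.B₂ :=
    IsScalarTower.of_algebraMap_eq' (Polynomial.aeval (R := k) X.g).comp_algebraMap.symm
  haveI : Module.Finite (Polynomial k) X.B₂ := X.finite₂
  exact Algebra.FiniteType.trans (inferInstance : Algebra.FiniteType k (Polynomial k))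
    (inferInstance : Algebra.FiniteType (Polynomial k) X.B₂)

theorem isNoetherianRing_tensor (B C : Type u) [CommRing B] [Algebra k B] [CommRing C]
    [Algebra k C] (hB : Algebra.FiniteType k B) (hC : Algebra.FiniteType k C) :
    IsNoetherianRing (B ⊗[k] C) := by
  haveI := hB
  haveI := hC
  haveI : IsNoetherianRing B := Algebra.FiniteType.isNoetherianRing k B
  haveI : Algebra.FiniteType B (B ⊗[k] C) := inferInstance
  exact Algebra.FiniteType.isNoetherianRing B (B ⊗[k] C)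

theorem tensor_map_injective {B C : Type u} [CommRing B] [Algebra k B] [CommRing C] [Algebra k C]
    (φ : B →ₐ[k] X.B₀) (χ : C →ₐ[k] X.B₀) (hφ : Function.Injective φ)
    (hχ : Function.Injective χ) :
    Function.Injective (Algebra.TensorProduct.map φ χ) :=
  TensorProduct.map_injective_of_flat_flat φ.toLinearMap χ.toLinearMap hφ hχ

theorem isDomain_tensor [IsDomain (X.B₀ ⊗[k] X.B₀)] {B C : Type u} [CommRing B] [Algebra k B]
    [CommRing C] [Algebra k C] (φ : B →ₐ[k] X.B₀) (χ : C →ₐ[k] X.B₀) (hφ : Function.Injective φ)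
    (hχ : Function.Injective χ) : IsDomain (B ⊗[k] C) :=
  (tensor_map_injective φ χ hφ hχ).isDomain (Algebra.TensorProduct.map φ χ).toRingHom

theorem map_diagonal₁ (x : X.B₁ ⊗[k] X.B₁) :
    X.graph X.ι₁ (X.res₁ X.B₁ x) = X.ι₁ (Algebra.TensorProduct.lmul' k (S := X.B₁) x) := by
  induction x using TensorProduct.induction_on with
  | zero => simp
  | tmul a b => simp [graph_res₁_tmul]
  | add a b ha hb => simp [ha, hb]

theorem map_diagonal₂ (x : X.B₂ ⊗[k] X.B₂) :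
    X.graph X.ι₂ (X.res₂ X.B₂ x) = X.ι₂ (Algebra.TensorProduct.lmul' k (S := X.B₂) x) := by
  induction x using TensorProduct.induction_on with
  | zero => simp
  | tmul a b => simp [graph_res₂_tmul]
  | add a b ha hb => simp [ha, hb]

theorem J₁_eq_diagonal : X.J₁ X.ι₁ = diagonal k X.B₁ := Ideal.ext fun x => by
  rw [mem_J₁, map_diagonal₁, map_eq_zero_iff _ X.ι₁_injective, mem_diagonal]

theorem J₂_eq_diagonal : X.J₂ X.ι₂ = diagonal k X.B₂ := Ideal.ext fun x => by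
  rw [mem_J₂, map_diagonal₂, map_eq_zero_iff _ X.ι₂_injective, mem_diagonal]

/-- A presentation of the graph on one chart gives a datum. -/
theorem exists_datum_of_pres [IsDomain (X.R₁ A)] [IsDomain (X.R₂ A)] [IsDomain (X.R₀ A)]
    (ψ : A →ₐ[k] X.B₀) {p₁ : Pres (X.R₁ A)} {p₂ : Pres (X.R₂ A)} (h₁ : ∀ m, p₁.t m ∈ X.J₁ ψ)
    (h₁' : ∀ m, ∀ x ∈ X.J₁ ψ, p₁.t m ∣ p₁.w m * x) (h₂ : ∀ m, p₂.t m ∈ X.J₂ ψ)
    (h₂' : ∀ m, ∀ x ∈ X.J₂ ψ, p₂.t m ∣ p₂.w m * x) :
    ∃ (L : Datum X A) (g : L.Gen), g.ideal₁ = X.J₁ ψ ∧ g.ideal₂ = X.J₂ ψ := by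
  have le₁ : p₁.Le p₁ := fun l m => h₁' m _ (h₁ l)
  have le₂ : p₂.Le p₂ := fun l m => h₂' m _ (h₂ l)
  have i₁ := res₁_injective X A X.isFree
  have i₂ := res₂_injective X A X.isFree
  have le₂₁ : (p₂.map (X.res₂ A).toRingHom i₂).Le (p₁.map (X.res₁ A).toRingHom i₁) := fun l m =>
    Pres.dvd_of_extension (X.t₀_mul_s₀ A) (X.exists_res₁ A) (X.J₀ ψ) p₁ h₁' m (h₂ l)
  have le₁₂ : (p₁.map (X.res₁ A).toRingHom i₁).Le (p₂.map (X.res₂ A).toRingHom i₂) := fun l m =>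
    Pres.dvd_of_extension (X.s₀_mul_t₀ A) (X.exists_res₂ A) (X.J₀ ψ) p₂ h₂' m (h₁ l)
  exact ⟨Datum.ofPres i₁ i₂ le₁ le₂ le₂₁ le₁₂, Datum.genOfPres i₁ i₂ le₁ le₂ le₂₁ le₁₂,
    p₁.span_eq h₁ h₁', p₂.span_eq h₂ h₂'⟩

theorem dd_ne_zero {B : Type u} [CommRing B] [Algebra k B] (b : B)
    (hb : ∀ c : k, b ≠ algebraMap k B c) : dd (k := k) b ≠ 0 := fun h0 => by
  have hli : b ∉ Submodule.span k {(1 : B)} := fun hm => by
    obtain ⟨c, hc⟩ := Submodule.mem_span_singleton.1 hm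
    exact hb c (by rw [← hc, Algebra.algebraMap_eq_smul_one])
  obtain ⟨l, hl, hl'⟩ := Submodule.exists_dual_map_eq_bot_of_notMem hli inferInstance
  have hl1 : l 1 = 0 := by
    have : l 1 ∈ (⊥ : Submodule k k) := hl' ▸ ⟨1, Submodule.mem_span_singleton_self _, rfl⟩
    simpa using this
  have h2 := congrArg ((TensorProduct.lid k B).toLinearMap ∘ₗ
    TensorProduct.map l (LinearMap.id : B →ₗ[k] B)) h0
  have h1 : (1 : B) ≠ 0 := fun h => hb 0 (by rw [map_zero, ← one_mul b, h, zero_mul])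
  simp [dd, hl1] at h2
  exact (h2.resolve_right h1 |> hl)

theorem diagonal_ne_bot {B : Type u} [CommRing B] [Algebra k B] (b : B)
    (hb : ∀ c : k, b ≠ algebraMap k B c) : diagonal k B ≠ ⊥ := fun h =>
  dd_ne_zero b hb (by simpa [h] using dd_mem (k := k) b)

theorem aeval_injective_of_free {B : Type u} [CommRing B] [Algebra k B] [Nontrivial B] (b : B)
    (h : letI := (Polynomial.aeval (R := k) b).toRingHom.toAlgebra
      Module.Free (Polynomial k) B) :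
    Function.Injective (Polynomial.aeval (R := k) b) := by
  letI := (Polynomial.aeval (R := k) b).toRingHom.toAlgebra
  haveI := h
  exact FaithfulSMul.algebraMap_injective (Polynomial k) B

theorem ne_const_of_free {B : Type u} [CommRing B] [Algebra k B] [Nontrivial B] (b : B)
    (h : letI := (Polynomial.aeval (R := k) b).toRingHom.toAlgebra
      Module.Free (Polynomial k) B) (c : k) : b ≠ algebraMap k B c := fun hc =>
  Polynomial.X_sub_C_ne_zero c (aeval_injective_of_free b h (by simp [hc]))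

/-- The ideal of the graph of the inclusion of the first chart gives a datum. -/
theorem exists_datum₁ [IsDomain (X.B₀ ⊗[k] X.B₀)] [Nontrivial X.B₁] (hB : GoodChart k X.B₁) :
    ∃ (L : Datum X X.B₁) (g : L.Gen), g.ideal₁ = X.J₁ X.ι₁ ∧ g.ideal₂ = X.J₂ X.ι₁ := by
  haveI := X.isDomain_tensor X.ι₁ X.ι₁ X.ι₁_injective X.ι₁_injective
  haveI := X.isDomain_tensor X.ι₁ X.ι₂ X.ι₁_injective X.ι₂_injective
  haveI := X.isDomain_tensor X.ι₁ (AlgHom.id k X.B₀) X.ι₁_injective Function.injective_id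
  haveI := isNoetherianRing_tensor X.B₁ X.B₂ X.finiteType₁ X.finiteType₂
  obtain ⟨n, x, y, hxy⟩ := hB.exists_dual_basis
  obtain ⟨p, hp, hp'⟩ := Pres.exists_of_dual_basis
    (diagonal_ne_bot X.f (ne_const_of_free X.f X.free₁)) x y hxy
  rw [← J₁_eq_diagonal] at hp hp'
  have hF : X.graph X.ι₁ (X.res₂ X.B₁ (X.f ⊗ₜ X.g - 1)) = 0 := by
    rw [map_sub, map_sub, graph_res₂_tmul, X.mul_eq_one, map_one, map_one, sub_self]
  have hF0 : X.f ⊗ₜ X.g - (1 : X.R₂ X.B₁) ≠ 0 := fun h => by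
    have h1 := congrArg (X.res₂ X.B₁) (sub_eq_zero.1 h)
    rw [map_one] at h1
    have h2 : (X.f ⊗ₜ[k] (1 : X.B₀)) = 1 ⊗ₜ X.ι₁ X.f := by
      calc (X.f ⊗ₜ[k] (1 : X.B₀)) = (X.res₂ X.B₁ (X.f ⊗ₜ X.g)) * (1 ⊗ₜ X.ι₁ X.f) := by
            simp [Charts.res₂, mul_comm (X.ι₂ X.g), X.mul_eq_one]
        _ = _ := by rw [h1, one_mul]
    refine dd_ne_zero X.f (ne_const_of_free X.f X.free₁) (res₁_injective X X.B₁ X.isFree ?_)
    rw [map_zero, dd, map_sub, sub_eq_zero]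
    simpa [Charts.res₁] using h2
  obtain ⟨q, hq, hq'⟩ := Pres.exists_transfer (r₁ := (X.res₁ X.B₁).toRingHom)
    (r₂ := (X.res₂ X.B₁).toRingHom) (t₀ := X.t₀ X.B₁) (G := (1 : X.B₁) ⊗ₜ X.g)
    (res₁_injective X _ X.isFree) (res₂_injective X _ X.isFree) (X.t₀_mul_s₀ _)
    (X.exists_res₁ _) (X.exists_res₂ _) (X.J₀ X.ι₁) p hp hp' (F := X.f ⊗ₜ X.g - 1) hF hF0
    (fun P hP hFP hGP => hP.ne_top ((Ideal.eq_top_iff_one P).2 (by
      have h4 := P.sub_mem (P.mul_mem_left ((X.f ⊗ₜ[k] (1 : X.B₂))) hGP) hFP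
      rwa [Algebra.TensorProduct.tmul_mul_tmul, mul_one, one_mul, sub_sub_cancel] at h4)))
  exact exists_datum_of_pres X.ι₁ hp hp' hq hq'

/-- The ideal of the graph of the inclusion of the second chart gives a datum. -/
theorem exists_datum₂ [IsDomain (X.B₀ ⊗[k] X.B₀)] [Nontrivial X.B₂] (hB : GoodChart k X.B₂) :
    ∃ (L : Datum X X.B₂) (g : L.Gen), g.ideal₁ = X.J₁ X.ι₂ ∧ g.ideal₂ = X.J₂ X.ι₂ := by
  haveI := X.isDomain_tensor X.ι₂ X.ι₂ X.ι₂_injective X.ι₂_injective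
  haveI := X.isDomain_tensor X.ι₂ X.ι₁ X.ι₂_injective X.ι₁_injective
  haveI := X.isDomain_tensor X.ι₂ (AlgHom.id k X.B₀) X.ι₂_injective Function.injective_id
  haveI := isNoetherianRing_tensor X.B₂ X.B₁ X.finiteType₂ X.finiteType₁
  obtain ⟨n, x, y, hxy⟩ := hB.exists_dual_basis
  obtain ⟨p, hp, hp'⟩ := Pres.exists_of_dual_basis
    (diagonal_ne_bot X.g (ne_const_of_free X.g X.free₂)) x y hxy
  rw [← J₂_eq_diagonal] at hp hp'
  have hF : X.graph X.ι₂ (X.res₁ X.B₂ (X.g ⊗ₜ X.f - 1)) = 0 := by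
    rw [map_sub, map_sub, graph_res₁_tmul, mul_comm (X.ι₂ X.g), X.mul_eq_one, map_one, map_one, sub_self]
  have hF0 : X.g ⊗ₜ X.f - (1 : X.R₁ X.B₂) ≠ 0 := fun h => by
    have h1 := congrArg (X.res₁ X.B₂) (sub_eq_zero.1 h)
    rw [map_one] at h1
    have h2 : (X.g ⊗ₜ[k] (1 : X.B₀)) = 1 ⊗ₜ X.ι₂ X.g := by
      calc (X.g ⊗ₜ[k] (1 : X.B₀)) = (X.res₁ X.B₂ (X.g ⊗ₜ X.f)) * (1 ⊗ₜ X.ι₂ X.g) := by
            simp [Charts.res₁, X.mul_eq_one]
        _ = _ := by rw [h1, one_mul]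
    refine dd_ne_zero X.g (ne_const_of_free X.g X.free₂) (res₂_injective X X.B₂ X.isFree ?_)
    rw [map_zero, dd, map_sub, sub_eq_zero]
    simpa [Charts.res₂] using h2
  obtain ⟨q, hq, hq'⟩ := Pres.exists_transfer (r₁ := (X.res₂ X.B₂).toRingHom)
    (r₂ := (X.res₁ X.B₂).toRingHom) (t₀ := X.s₀ X.B₂) (G := (1 : X.B₂) ⊗ₜ X.f)
    (res₂_injective X _ X.isFree) (res₁_injective X _ X.isFree) (X.s₀_mul_t₀ _)
    (X.exists_res₂ _) (X.exists_res₁ _) (X.J₀ X.ι₂) p hp hp' (F := X.g ⊗ₜ X.f - 1) hF hF0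
    (fun P hP hFP hGP => hP.ne_top ((Ideal.eq_top_iff_one P).2 (by
      have h4 := P.sub_mem (P.mul_mem_left ((X.g ⊗ₜ[k] (1 : X.B₁))) hGP) hFP
      rwa [Algebra.TensorProduct.tmul_mul_tmul, mul_one, one_mul, sub_sub_cancel] at h4)))
  exact exists_datum_of_pres X.ι₂ hq hq' hp hp'

end Charts

end FLTAgent.PicScheme
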