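import Fermat.Agent.PicScheme.Abel.Pres

/-!
# Data with a section of the function field

A datum with a nonzero fixed vector on each chart is determined by the ideals of their entries.
-/

set_option autoImplicit false

noncomputable section

universe u

open TensorProduct Matrix
open scoped TensorProduct

namespace FLTAgent.PicScheme

section Rank

variable {R : Type u} [CommRing R]

theorem IsRankOne.fixed_mul_entry {n : ℕ} {e : Matrix (Fin n) (Fin n) R} (he : IsRankOne e)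
    {t : Fin n → R} (ht : e *ᵥ t = t) (i j l : Fin n) : e i j * t l = t i * e l j := by
  have h1 : t l = ∑ m, e l m * t m := (congrFun ht l).symm
  have h2 : t i = ∑ m, e i m * t m := (congrFun ht i).symm
  rw [h1, h2, Finset.mul_sum, Finset.sum_mul]
  exact Finset.sum_congr rfl fun m _ => by linear_combination t m * he.minors i j l m

theorem IsRankOne.ext_of_fixed [IsDomain R] {n q : ℕ} {e : Matrix (Fin n) (Fin n) R}
    (he : IsRankOne e) {t : Fin n → R} (ht : e *ᵥ t = t) (ht0 : t ≠ 0)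
    {Z Z' : Matrix (Fin q) (Fin n) R} (hZ : Z * e = Z) (hZ' : Z' * e = Z')
    (h : Z *ᵥ t = Z' *ᵥ t) : Z = Z' := by
  obtain ⟨l, hl⟩ := Function.ne_iff.1 ht0
  have key : ∀ M : Matrix (Fin q) (Fin n) R, M * e = M → ∀ i j,
      t l * M i j = (M *ᵥ t) i * e l j := fun M hM i j => by
    conv_lhs => rw [← hM]
    rw [Matrix.mul_apply, Finset.mul_sum, Matrix.mulVec, dotProduct, Finset.sum_mul]
    exact Finset.sum_congr rfl fun m _ => by linear_combination (M i m) * he.fixed_mul_entry ht m j l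
  exact Matrix.ext fun i j => mul_left_cancel₀ hl (by rw [key Z hZ, key Z' hZ', h])

theorem exists_mulVec_eq {n q : ℕ} {t : Fin n → R} {t' : Fin q → R}
    (h : ∀ i, t' i ∈ Ideal.span (Set.range t)) :
    ∃ M : Matrix (Fin q) (Fin n) R, M *ᵥ t = t' := by
  choose c hc using fun i => Ideal.mem_span_range_iff_exists_fun.1 (h i)
  exact ⟨Matrix.of c, funext hc⟩

/-- Vectors generating the same ideal: the transition of their idempotents. -/
theorem exists_fixed_transition [IsDomain R] {n q : ℕ} {e : Matrix (Fin n) (Fin n) R}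
    {e' : Matrix (Fin q) (Fin q) R} (he : IsRankOne e) (he' : IsRankOne e') {t : Fin n → R}
    {t' : Fin q → R} (ht : e *ᵥ t = t) (ht' : e' *ᵥ t' = t') (ht0 : t ≠ 0) (ht0' : t' ≠ 0)
    (h : Ideal.span (Set.range t) = Ideal.span (Set.range t')) :
    ∃ (a : Matrix (Fin q) (Fin n) R) (b : Matrix (Fin n) (Fin q) R),
      a * b = e' ∧ b * a = e ∧ a * e = a ∧ a *ᵥ t = t' := by
  obtain ⟨M, hM⟩ := exists_mulVec_eq (t := t) (t' := t')
    fun i => h ▸ Ideal.subset_span ⟨i, rfl⟩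
  obtain ⟨N, hN⟩ := exists_mulVec_eq (t := t') (t' := t)
    fun i => h.symm ▸ Ideal.subset_span ⟨i, rfl⟩
  refine ⟨e' * M * e, e * N * e', ?_, ?_, by simp only [Matrix.mul_assoc, he.idem], ?_⟩
  · refine he'.ext_of_fixed ht' ht0' (by simp only [Matrix.mul_assoc, he'.idem]) he'.idem ?_
    simp only [← Matrix.mulVec_mulVec, ht', hN, ht, hM]
  · refine he.ext_of_fixed ht ht0 (by simp only [Matrix.mul_assoc, he.idem]) he.idem ?_
    simp only [← Matrix.mulVec_mulVec, ht, hM, ht', hN]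
  · simp only [← Matrix.mulVec_mulVec, ht, hM, ht']

end Rank

variable {k : Type u} [Field k] {X : Charts k} {A A' : Type u} [CommRing A] [Algebra k A]
  [CommRing A'] [Algebra k A']

/-- Nonzero fixed vectors on both charts, glued. -/
structure Datum.Gen (L : Datum X A) where
  t₁ : Fin L.n₁ → X.R₁ A
  t₂ : Fin L.n₂ → X.R₂ A
  fix₁ : L.e₁ *ᵥ t₁ = t₁
  fix₂ : L.e₂ *ᵥ t₂ = t₂
  ne₁ : t₁ ≠ 0
  ne₂ : t₂ ≠ 0
  glue : L.u *ᵥ (X.res₁ A ∘ t₁) = X.res₂ A ∘ t₂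

namespace Datum.Gen

variable {L L' : Datum X A}

/-- The ideal on the first chart. -/
def ideal₁ (g : L.Gen) : Ideal (X.R₁ A) := Ideal.span (Set.range g.t₁)

/-- The ideal on the second chart. -/
def ideal₂ (g : L.Gen) : Ideal (X.R₂ A) := Ideal.span (Set.range g.t₂)

/-- The vectors after a change of coefficients. -/
def map (g : L.Gen) (φ : A →ₐ[k] A') (h₁ : chartMap X.B₁ φ ∘ g.t₁ ≠ 0)
    (h₂ : chartMap X.B₂ φ ∘ g.t₂ ≠ 0) : (L.map φ).Gen where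
  t₁ := chartMap X.B₁ φ ∘ g.t₁
  t₂ := chartMap X.B₂ φ ∘ g.t₂
  fix₁ := funext fun i => ((chartMap X.B₁ φ).toRingHom.map_mulVec L.e₁ g.t₁ i).symm.trans
    (congrArg _ (congrFun g.fix₁ i))
  fix₂ := funext fun i => ((chartMap X.B₂ φ).toRingHom.map_mulVec L.e₂ g.t₂ i).symm.trans
    (congrArg _ (congrFun g.fix₂ i))
  ne₁ := h₁
  ne₂ := h₂
  glue := by
    have e1 : X.res₁ A' ∘ (chartMap X.B₁ φ ∘ g.t₁) = chartMap X.B₀ φ ∘ (X.res₁ A ∘ g.t₁) :=
      funext fun i => (chartMap_res₁ φ _).symm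
    refine (congrArg (fun z => (L.map φ).u *ᵥ z) e1).trans ?_
    refine funext fun i => ((chartMap X.B₀ φ).toRingHom.map_mulVec L.u _ i).symm.trans ?_
    exact (congrArg _ (congrFun g.glue i)).trans (chartMap_res₂ φ _)

theorem map_ideal₁ (g : L.Gen) (φ : A →ₐ[k] A') (h₁ : chartMap X.B₁ φ ∘ g.t₁ ≠ 0)
    (h₂ : chartMap X.B₂ φ ∘ g.t₂ ≠ 0) :
    (g.map φ h₁ h₂).ideal₁ = g.ideal₁.map (chartMap X.B₁ φ) := by
  rw [ideal₁, ideal₁, Ideal.map_span, ← Set.range_comp]; rfl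

theorem map_ideal₂ (g : L.Gen) (φ : A →ₐ[k] A') (h₁ : chartMap X.B₁ φ ∘ g.t₁ ≠ 0)
    (h₂ : chartMap X.B₂ φ ∘ g.t₂ ≠ 0) :
    (g.map φ h₁ h₂).ideal₂ = g.ideal₂.map (chartMap X.B₂ φ) := by
  rw [ideal₂, ideal₂, Ideal.map_span, ← Set.range_comp]; rfl

/-- Equal ideals give isomorphic data. -/
theorem nonempty_iso [IsDomain (X.R₁ A)] [IsDomain (X.R₂ A)] [IsDomain (X.R₀ A)]
    (i₁ : Function.Injective (X.res₁ A)) (g : L.Gen) (g' : L'.Gen)
    (h₁ : g.ideal₁ = g'.ideal₁) (h₂ : g.ideal₂ = g'.ideal₂) : Nonempty (Datum.Iso L L') := by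
  obtain ⟨a₁, b₁, ab₁, ba₁, ae₁, at₁⟩ :=
    exists_fixed_transition L.rank₁ L'.rank₁ g.fix₁ g'.fix₁ g.ne₁ g'.ne₁ h₁
  obtain ⟨a₂, b₂, ab₂, ba₂, ae₂, at₂⟩ :=
    exists_fixed_transition L.rank₂ L'.rank₂ g.fix₂ g'.fix₂ g.ne₂ g'.ne₂ h₂
  refine ⟨⟨a₁, b₁, a₂, b₂, ab₁, ba₁, ab₂, ba₂, ?_⟩⟩
  have hr : IsRankOne (L.e₁.map (X.res₁ A)) := Datum.IsRankOne.map (X.res₁ A).toRingHom L.rank₁
  have f1 : L.e₁.map (X.res₁ A) *ᵥ (X.res₁ A ∘ g.t₁) = X.res₁ A ∘ g.t₁ :=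
    funext fun i => ((X.res₁ A).toRingHom.map_mulVec L.e₁ g.t₁ i).symm.trans
      (congrArg _ (congrFun g.fix₁ i))
  have m1 : a₁.map (X.res₁ A) *ᵥ (X.res₁ A ∘ g.t₁) = X.res₁ A ∘ g'.t₁ :=
    funext fun i => ((X.res₁ A).toRingHom.map_mulVec a₁ g.t₁ i).symm.trans
      (congrArg _ (congrFun at₁ i))
  have m2 : a₂.map (X.res₂ A) *ᵥ (X.res₂ A ∘ g.t₂) = X.res₂ A ∘ g'.t₂ :=
    funext fun i => ((X.res₂ A).toRingHom.map_mulVec a₂ g.t₂ i).symm.trans
      (congrArg _ (congrFun at₂ i))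
  refine hr.ext_of_fixed f1 (fun h => g.ne₁ (funext fun i => i₁ ?_)) ?_ ?_ ?_
  · exact (congrFun h i).trans (map_zero _).symm
  · rw [Matrix.mul_assoc, hr.idem]
  · rw [Matrix.mul_assoc, L.u_cut]
  · simp only [← Matrix.mulVec_mulVec, f1, m1, g'.glue, g.glue, m2]

end Datum.Gen

/-- The fixed vectors of the datum of two presentations. -/
def Datum.genOfPres [IsDomain (X.R₁ A)] [IsDomain (X.R₂ A)] [IsDomain (X.R₀ A)]
    (i₁ : Function.Injective (X.res₁ A)) (i₂ : Function.Injective (X.res₂ A))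
    {p₁ : Pres (X.R₁ A)} {p₂ : Pres (X.R₂ A)} (h₁ : p₁.Le p₁) (h₂ : p₂.Le p₂)
    (h₂₁ : (p₂.map (X.res₂ A).toRingHom i₂).Le (p₁.map (X.res₁ A).toRingHom i₁))
    (h₁₂ : (p₁.map (X.res₁ A).toRingHom i₁).Le (p₂.map (X.res₂ A).toRingHom i₂)) :
    (Datum.ofPres i₁ i₂ h₁ h₂ h₂₁ h₁₂).Gen where
  t₁ := p₁.t
  t₂ := p₂.t
  fix₁ := Pres.mat_mulVec h₁
  fix₂ := Pres.mat_mulVec h₂
  ne₁ := p₁.t_fun_ne
  ne₂ := p₂.t_fun_ne
  glue := Pres.mat_mulVec h₂₁

end FLTAgent.PicScheme
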