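import Fermat.Agent.PicScheme.Abel.Twist
import Fermat.Agent.PicScheme.Chart.GoodChart
import Fermat.Agent.PicScheme.Points.Exists

/-!
# The classes of the points of a curve on its two charts
-/

set_option autoImplicit false
set_option linter.style.haveILetI false

noncomputable section

universe u

open CategoryTheory AlgebraicGeometry NeronModelInfra

namespace FLTAgent.PicScheme

variable {k : Type u} [Field k] [IsAlgClosed k] {C : Scheme.{u}}
  {c : C ⟶ Spec (CommRingCat.of k)} [IsProper c] [SmoothOfRelativeDimension 1 c] [IsIntegral C]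
  {ε : SchemeHomOver (𝟙 (Spec (CommRingCat.of k))) c}

/-- The class of a point of the overlap minus a fixed one. -/
theorem Frame.exists_abel (F : Frame c ε) (P₀ : F.X.B₀ →ₐ[k] k) :
    ∃ (D : ∀ P : F.X.B₀ →ₐ[k] k, PtData F.X P) (x₁ : Cls F.X F.X.B₁) (x₂ : Cls F.X F.X.B₂),
      x₁.IsZero ∧ x₂.IsZero ∧ Cls.map F.X.ι₁ x₁ = Cls.map F.X.ι₂ x₂ ∧
      ∀ P : F.X.B₀ →ₐ[k] k, Cls.map (P.comp F.X.ι₁) x₁ =
        (Cls.of ⟨(D P).base k, Datum.base_isRigidifiable (D P) k⟩)⁻¹ *
          Cls.of ⟨(D P₀).base k, Datum.base_isRigidifiable (D P₀) k⟩ := by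
  haveI := F.isDomain_tensor₀
  haveI := F.nontrivial₁
  haveI := F.nontrivial₂
  exact ⟨fun P => (F.nonempty_ptData P).some,
    Charts.exists_abel F.goodChart F.goodChart₂ _ P₀⟩

end FLTAgent.PicScheme
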