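import Fermat.Agent.PicScheme.Datum

/-!
# Data of locally principal ideals

Elements `t m` generate an ideal which is principal, generated by `t m`, where the weight `w m` is
invertible; the weights add up to one.
-/

set_option autoImplicit false

noncomputable section

universe u

open TensorProduct Matrix
open scoped TensorProduct

namespace FLTAgent.PicScheme

/-- A locally principal presentation. -/
structure Pres (R : Type u) [CommRing R] where
  n : ℕ
  t : Fin n → R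
  w : Fin n → R
  t_ne : ∀ m, t m ≠ 0
  sum_w : ∑ m, w m = 1

namespace Pres

variable {R S : Type u} [CommRing R] [CommRing S]

/-- `p` lies in the ideal of `q`, locally principal. -/
def Le (p q : Pres R) : Prop := ∀ l m, q.t m ∣ q.w m * p.t l

/-- The image under an injective homomorphism. -/
abbrev map (φ : R →+* S) (hφ : Function.Injective φ) (p : Pres R) : Pres S where
  n := p.n
  t := φ ∘ p.t
  w := φ ∘ p.w
  t_ne m := fun h => p.t_ne m (hφ (h.trans (map_zero φ).symm))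
  sum_w := by simp [← map_sum, p.sum_w]

theorem Le.map {p q : Pres R} (h : p.Le q) (φ : R →+* S) (hφ : Function.Injective φ) :
    (p.map φ hφ).Le (q.map φ hφ) := fun l m => by
  show φ (q.t m) ∣ φ (q.w m) * φ (p.t l)
  rw [← map_mul]
  exact map_dvd φ (h l m)

/-- The matrix of the inclusion. -/
def mat {p q : Pres R} (h : p.Le q) : Matrix (Fin p.n) (Fin q.n) R :=
  Matrix.of fun l m => (h l m).choose

theorem mat_spec {p q : Pres R} (h : p.Le q) (l : Fin p.n) (m : Fin q.n) :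
    q.t m * mat h l m = q.w m * p.t l := (h l m).choose_spec.symm

variable [IsDomain R]

theorem mat_unique {p q : Pres R} (h : p.Le q) (M : Matrix (Fin p.n) (Fin q.n) R)
    (hM : ∀ l m, q.t m * M l m = q.w m * p.t l) : M = mat h :=
  Matrix.ext fun l m => mul_left_cancel₀ (q.t_ne m) ((hM l m).trans (mat_spec h l m).symm)

theorem mat_mul {p q r : Pres R} (hpq : p.Le q) (hqr : q.Le r) (hpr : p.Le r) :
    mat hpq * mat hqr = mat hpr := by
  refine mat_unique hpr _ fun l m => ?_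
  rw [Matrix.mul_apply, Finset.mul_sum]
  calc ∑ j, r.t m * (mat hpq l j * mat hqr j m)
      = ∑ j, (r.w m * p.t l) * q.w j := by
        refine Finset.sum_congr rfl fun j _ => ?_
        linear_combination (mat hpq l j) * mat_spec hqr j m + r.w m * mat_spec hpq l j
    _ = r.w m * p.t l := by rw [← Finset.mul_sum, q.sum_w, mul_one]

omit [IsDomain R] in
theorem mat_map [IsDomain S] {p q : Pres R} (h : p.Le q) (φ : R →+* S)
    (hφ : Function.Injective φ) : (mat h).map φ = mat (h.map φ hφ) :=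
  mat_unique (h.map φ hφ) _ fun l m => by
    show φ (q.t m) * φ (mat h l m) = φ (q.w m) * φ (p.t l)
    rw [← map_mul, ← map_mul, mat_spec]

omit [IsDomain R] in
theorem mat_mulVec {p q : Pres R} (h : p.Le q) : mat h *ᵥ q.t = p.t := funext fun l => by
  rw [Matrix.mulVec, dotProduct]
  calc ∑ m, mat h l m * q.t m = ∑ m, p.t l * q.w m :=
        Finset.sum_congr rfl fun m _ => by linear_combination mat_spec h l m
    _ = p.t l := by rw [← Finset.mul_sum, q.sum_w, mul_one]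

theorem t_fun_ne (p : Pres R) : p.t ≠ 0 := fun h => by
  have hn : p.n = 0 := Nat.eq_zero_of_not_pos fun hp => p.t_ne ⟨0, hp⟩ (congrFun h _)
  have h1 := p.sum_w
  rw [Finset.sum_eq_zero fun m _ => absurd m.2 (by omega)] at h1
  exact zero_ne_one h1

omit [IsDomain R] in
theorem span_eq {J : Ideal R} (p : Pres R) (ht : ∀ m, p.t m ∈ J)
    (hd : ∀ m, ∀ x ∈ J, p.t m ∣ p.w m * x) : Ideal.span (Set.range p.t) = J := by
  refine le_antisymm (Ideal.span_le.2 (Set.range_subset_iff.2 ht)) fun x hx => ?_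
  rw [← one_mul x, ← p.sum_w, Finset.sum_mul]
  refine Ideal.sum_mem _ fun m _ => ?_
  obtain ⟨q, hq⟩ := hd m x hx
  rw [hq]
  exact Ideal.mul_mem_right _ _ (Ideal.subset_span ⟨m, rfl⟩)

theorem isRankOne_mat {p : Pres R} (h : p.Le p) : IsRankOne (mat h) where
  idem := mat_mul h h h
  trace := by
    refine (Finset.sum_congr rfl fun m _ => ?_).trans p.sum_w
    exact mul_left_cancel₀ (p.t_ne m) ((mat_spec h m m).trans (mul_comm _ _))
  minors i j l m := by
    refine mul_left_cancel₀ (mul_ne_zero (p.t_ne j) (p.t_ne m)) ?_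
    linear_combination (p.t m * mat h l m) * mat_spec h i j
      + (p.w j * p.t i) * mat_spec h l m
      - (p.t j * mat h l j) * mat_spec h i m - (p.w m * p.t i) * mat_spec h l j

omit [IsDomain R] in
/-- An ideal principal near every maximal ideal has a presentation. -/
theorem exists_of_locally_principal (J : Ideal R)
    (H : ∀ P : Ideal R, P.IsMaximal → ∃ s ∉ P, ∃ t ∈ J, t ≠ 0 ∧ ∀ x ∈ J, t ∣ s * x) :
    ∃ p : Pres R, (∀ m, p.t m ∈ J) ∧ ∀ m, ∀ x ∈ J, p.t m ∣ p.w m * x := by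
  let Sg : Set R := {s | ∃ t ∈ J, t ≠ 0 ∧ ∀ x ∈ J, t ∣ s * x}
  have htop : Ideal.span Sg = ⊤ := by
    by_contra hne
    obtain ⟨P, hP, hle⟩ := Ideal.exists_le_maximal _ hne
    obtain ⟨s, hs, ht⟩ := H P hP
    exact hs (hle (Ideal.subset_span ht))
  have h1 : (1 : R) ∈ Submodule.span R Sg := by
    rw [show Submodule.span R Sg = Ideal.span Sg from rfl, htop]; exact Submodule.mem_top
  obtain ⟨n, c, g, hsum⟩ := Submodule.mem_span_set'.1 h1
  choose t htJ ht0 hdvd using fun i => (g i).2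
  refine ⟨⟨n, t, fun i => c i * (g i : R), ht0, by simpa [smul_eq_mul] using hsum⟩, htJ,
    fun m x hx => ?_⟩
  show t m ∣ c m * (g m : R) * x
  rw [mul_assoc]
  exact (hdvd m x hx).mul_left _

end Pres

variable {k : Type u} [Field k] {X : Charts k} {A : Type u} [CommRing A] [Algebra k A]

/-- The datum of compatible presentations on the two charts. -/
def Datum.ofPres [IsDomain (X.R₁ A)] [IsDomain (X.R₂ A)] [IsDomain (X.R₀ A)]
    (i₁ : Function.Injective (X.res₁ A)) (i₂ : Function.Injective (X.res₂ A))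
    {p₁ : Pres (X.R₁ A)} {p₂ : Pres (X.R₂ A)} (h₁ : p₁.Le p₁) (h₂ : p₂.Le p₂)
    (h₂₁ : (p₂.map (X.res₂ A).toRingHom i₂).Le (p₁.map (X.res₁ A).toRingHom i₁))
    (h₁₂ : (p₁.map (X.res₁ A).toRingHom i₁).Le (p₂.map (X.res₂ A).toRingHom i₂)) :
    Datum X A where
  n₁ := p₁.n
  n₂ := p₂.n
  e₁ := Pres.mat h₁
  e₂ := Pres.mat h₂
  u := Pres.mat h₂₁
  v := Pres.mat h₁₂
  rank₁ := Pres.isRankOne_mat h₁
  rank₂ := Pres.isRankOne_mat h₂
  uv := (Pres.mat_mul h₂₁ h₁₂ (h₂.map _ i₂)).trans (Pres.mat_map h₂ _ i₂).symm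
  vu := (Pres.mat_mul h₁₂ h₂₁ (h₁.map _ i₁)).trans (Pres.mat_map h₁ _ i₁).symm
  u_cut := (congrArg (Pres.mat h₂₁ * ·) (Pres.mat_map h₁ _ i₁)).trans
    (Pres.mat_mul h₂₁ (h₁.map _ i₁) h₂₁)
  v_cut := (congrArg (Pres.mat h₁₂ * ·) (Pres.mat_map h₂ _ i₂)).trans
    (Pres.mat_mul h₁₂ (h₂.map _ i₂) h₁₂)

/-- Presentations of the same ideal give isomorphic data. -/
def Datum.ofPresIso [IsDomain (X.R₁ A)] [IsDomain (X.R₂ A)] [IsDomain (X.R₀ A)]
    (i₁ : Function.Injective (X.res₁ A)) (i₂ : Function.Injective (X.res₂ A))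
    {p₁ q₁ : Pres (X.R₁ A)} {p₂ q₂ : Pres (X.R₂ A)} (h₁ : p₁.Le p₁) (h₂ : p₂.Le p₂)
    (g₁ : q₁.Le q₁) (g₂ : q₂.Le q₂)
    (h₂₁ : (p₂.map (X.res₂ A).toRingHom i₂).Le (p₁.map (X.res₁ A).toRingHom i₁))
    (h₁₂ : (p₁.map (X.res₁ A).toRingHom i₁).Le (p₂.map (X.res₂ A).toRingHom i₂))
    (g₂₁ : (q₂.map (X.res₂ A).toRingHom i₂).Le (q₁.map (X.res₁ A).toRingHom i₁))
    (g₁₂ : (q₁.map (X.res₁ A).toRingHom i₁).Le (q₂.map (X.res₂ A).toRingHom i₂))
    (a₁ : q₁.Le p₁) (b₁ : p₁.Le q₁) (a₂ : q₂.Le p₂) (b₂ : p₂.Le q₂)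
    (c : (q₂.map (X.res₂ A).toRingHom i₂).Le (p₁.map (X.res₁ A).toRingHom i₁)) :
    Datum.Iso (Datum.ofPres i₁ i₂ h₁ h₂ h₂₁ h₁₂) (Datum.ofPres i₁ i₂ g₁ g₂ g₂₁ g₁₂) where
  a₁ := Pres.mat a₁
  b₁ := Pres.mat b₁
  a₂ := Pres.mat a₂
  b₂ := Pres.mat b₂
  ab₁ := Pres.mat_mul a₁ b₁ g₁
  ba₁ := Pres.mat_mul b₁ a₁ h₁
  ab₂ := Pres.mat_mul a₂ b₂ g₂
  ba₂ := Pres.mat_mul b₂ a₂ h₂
  compat := by
    show Pres.mat g₂₁ * (Pres.mat a₁).map (X.res₁ A).toRingHom *
      (Pres.mat h₁).map (X.res₁ A).toRingHom =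
        (Pres.mat a₂).map (X.res₂ A).toRingHom * Pres.mat h₂₁
    rw [Pres.mat_map a₁ _ i₁, Pres.mat_map h₁ _ i₁, Pres.mat_map a₂ _ i₂]
    exact ((congrArg (· * _) (Pres.mat_mul g₂₁ (a₁.map _ i₁) c)).trans
      (Pres.mat_mul c (h₁.map _ i₁) c)).trans (Pres.mat_mul (a₂.map _ i₂) h₂₁ c).symm

end FLTAgent.PicScheme
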