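import Fermat.Agent.PicScheme.Abel.Value
import Fermat.Agent.PicScheme.Group
import Fermat.Agent.PicScheme.Points.Twist
import Fermat.Agent.PicScheme.Points.Finite

/-!
# The rigidified family of points of degree zero
-/

set_option autoImplicit false
set_option linter.style.haveILetI false

noncomputable section

universe u

open TensorProduct Matrix
open scoped TensorProduct

namespace FLTAgent.PicScheme

variable {k : Type u} [Field k] {X : Charts k} {A A' : Type u} [CommRing A] [Algebra k A]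
  [CommRing A'] [Algebra k A']

/-- Evaluation at the marked point. -/
def ptEv (X : Charts k) (A : Type u) [CommRing A] [Algebra k A] : X.R₁ A →ₐ[A] A :=
  Algebra.TensorProduct.lift (AlgHom.id A A) ((Algebra.ofId k A).comp X.pt)
    fun _ _ => Commute.all _ _

theorem ptEv_chartMap (f : A →ₐ[k] A') (x : X.R₁ A) :
    ptEv X A' (Datum.chartMap X.B₁ f x) = f (ptEv X A x) := by
  induction x using TensorProduct.induction_on with
  | zero => simp
  | tmul a b => simp [ptEv, Datum.chartMap, Algebra.ofId_apply]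
  | add a b ha hb => simp [ha, hb]

theorem ptEv_algebraMap (a : A) : ptEv X A (algebraMap A (X.R₁ A) a) = a := by
  rw [AlgHom.commutes]; rfl

namespace Datum

/-- A constant datum. -/
def ofBase (X : Charts k) {n : ℕ} (E : Matrix (Fin n) (Fin n) A) (h : IsRankOne E) : Datum X A where
  n₁ := n
  n₂ := n
  e₁ := E.map (algebraMap A (X.R₁ A))
  e₂ := E.map (algebraMap A (X.R₂ A))
  u := E.map (algebraMap A (X.R₀ A))
  v := E.map (algebraMap A (X.R₀ A))
  rank₁ := IsRankOne.map _ h
  rank₂ := IsRankOne.map _ h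
  uv := by
    rw [← Matrix.map_mul, h.idem, Matrix.map_map]
    exact Matrix.ext fun i j => ((X.res₂ A).commutes _).symm
  vu := by
    rw [← Matrix.map_mul, h.idem, Matrix.map_map]
    exact Matrix.ext fun i j => ((X.res₁ A).commutes _).symm
  u_cut := by
    rw [Matrix.map_map, show (X.res₁ A ∘ algebraMap A (X.R₁ A)) = algebraMap A (X.R₀ A) from
      funext fun a => (X.res₁ A).commutes a, ← Matrix.map_mul, h.idem]
  v_cut := by
    rw [Matrix.map_map, show (X.res₂ A ∘ algebraMap A (X.R₂ A)) = algebraMap A (X.R₀ A) from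
      funext fun a => (X.res₂ A).commutes a, ← Matrix.map_mul, h.idem]

theorem map_ofBase (f : A →ₐ[k] A') {n : ℕ} (E : Matrix (Fin n) (Fin n) A) (h : IsRankOne E) :
    (ofBase X E h).map f = ofBase X (E.map f) (IsRankOne.map f.toRingHom h) := by
  have e : ∀ (B : Type u) [CommRing B] [Algebra k B],
      (E.map (algebraMap A (A ⊗[k] B))).map (chartMap B f) =
        (E.map f).map (algebraMap A' (A' ⊗[k] B)) := fun B _ _ => by
    rw [Matrix.map_map, Matrix.map_map]
    exact Matrix.ext fun i j => by simp [chartMap]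
  simp only [Datum.map, ofBase, e]

/-- Equivalent idempotents give isomorphic constant data. -/
def ofBaseIso {n m : ℕ} {E : Matrix (Fin n) (Fin n) A} {E' : Matrix (Fin m) (Fin m) A}
    (h : IsRankOne E) (h' : IsRankOne E') (a : Matrix (Fin m) (Fin n) A)
    (b : Matrix (Fin n) (Fin m) A) (hab : a * b = E') (hba : b * a = E) :
    Iso (ofBase X E h) (ofBase X E' h') where
  a₁ := a.map (algebraMap A (X.R₁ A))
  b₁ := b.map (algebraMap A (X.R₁ A))
  a₂ := a.map (algebraMap A (X.R₂ A))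
  b₂ := b.map (algebraMap A (X.R₂ A))
  ab₁ := Matrix.map_mul.symm.trans (congrArg (fun M => M.map (algebraMap A (X.R₁ A))) hab)
  ba₁ := Matrix.map_mul.symm.trans (congrArg (fun M => M.map (algebraMap A (X.R₁ A))) hba)
  ab₂ := Matrix.map_mul.symm.trans (congrArg (fun M => M.map (algebraMap A (X.R₂ A))) hab)
  ba₂ := Matrix.map_mul.symm.trans (congrArg (fun M => M.map (algebraMap A (X.R₂ A))) hba)
  compat := by
    have key : E' * a * E = a * E := by
      rw [← hab, Matrix.mul_assoc a b a, hba, Matrix.mul_assoc, h.idem]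
    show E'.map (algebraMap A (X.R₀ A)) * (a.map (algebraMap A (X.R₁ A))).map (X.res₁ A) *
        (E.map (algebraMap A (X.R₁ A))).map (X.res₁ A) =
      (a.map (algebraMap A (X.R₂ A))).map (X.res₂ A) * E.map (algebraMap A (X.R₀ A))
    rw [Matrix.map_map, Matrix.map_map, Matrix.map_map,
      show (X.res₁ A ∘ algebraMap A (X.R₁ A)) = algebraMap A (X.R₀ A) from
        funext fun x => (X.res₁ A).commutes x,
      show (X.res₂ A ∘ algebraMap A (X.R₂ A)) = algebraMap A (X.R₀ A) from
        funext fun x => (X.res₂ A).commutes x,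
      ← Matrix.map_mul, ← Matrix.map_mul, ← Matrix.map_mul, key]

theorem col_mul_row {R : Type u} [CommRing R] [Algebra A R] {n : ℕ} (a b : Fin n → A) :
    (Matrix.of fun i (_ : Fin 1) => algebraMap A R (a i)) *
      (Matrix.of fun (_ : Fin 1) i => algebraMap A R (b i)) =
        (Matrix.vecMulVec a b).map (algebraMap A R) :=
  Matrix.ext fun i j => by simp [Matrix.mul_apply, Matrix.vecMulVec_apply]

theorem row_mul_col {R : Type u} [CommRing R] [Algebra A R] {n : ℕ} (a b : Fin n → A)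
    (hab : b ⬝ᵥ a = 1) :
    (Matrix.of fun (_ : Fin 1) i => algebraMap A R (b i)) *
      (Matrix.of fun i (_ : Fin 1) => algebraMap A R (a i)) = 1 := by
  refine Matrix.ext fun i j => ?_
  obtain rfl : i = j := Subsingleton.elim i j
  rw [Matrix.one_apply_eq, Matrix.mul_apply, ← map_one (algebraMap A R), ← hab, dotProduct, map_sum]
  exact Finset.sum_congr rfl fun l _ => by simp

/-- A split constant datum is trivial. -/
def ofBaseIsoOne {n : ℕ} (E : Matrix (Fin n) (Fin n) A) (h : IsRankOne E) (a b : Fin n → A)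
    (hab : b ⬝ᵥ a = 1) (hE : E = Matrix.vecMulVec a b) : Iso (ofBase X E h) (Datum.one X A) :=
  Iso.symm (L := Datum.one X A) (L' := ofBase X E h)
  { a₁ := Matrix.of fun i _ => algebraMap A (X.R₁ A) (a i)
    b₁ := Matrix.of fun _ i => algebraMap A (X.R₁ A) (b i)
    a₂ := Matrix.of fun i _ => algebraMap A (X.R₂ A) (a i)
    b₂ := Matrix.of fun _ i => algebraMap A (X.R₂ A) (b i)
    ab₁ := (col_mul_row a b).trans (congrArg (fun M => M.map (algebraMap A (X.R₁ A))) hE.symm)
    ba₁ := row_mul_col a b hab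
    ab₂ := (col_mul_row a b).trans (congrArg (fun M => M.map (algebraMap A (X.R₂ A))) hE.symm)
    ba₂ := row_mul_col a b hab
    compat := by
      subst hE
      have e₁ : (Matrix.of fun i (_ : Fin 1) => algebraMap A (X.R₁ A) (a i)).map (X.res₁ A) =
          Matrix.of fun i (_ : Fin 1) => algebraMap A (X.R₀ A) (a i) :=
        Matrix.ext fun i o => (X.res₁ A).commutes (a i)
      have e₂ : (Matrix.of fun i (_ : Fin 1) => algebraMap A (X.R₂ A) (a i)).map (X.res₂ A) =
          Matrix.of fun i (_ : Fin 1) => algebraMap A (X.R₀ A) (a i) :=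
        Matrix.ext fun i o => (X.res₂ A).commutes (a i)
      show (Matrix.vecMulVec a b).map (algebraMap A (X.R₀ A)) *
          (Matrix.of fun i (_ : Fin 1) => algebraMap A (X.R₁ A) (a i)).map (X.res₁ A) *
          (1 : Matrix (Fin 1) (Fin 1) (X.R₁ A)).map (X.res₁ A) =
        (Matrix.of fun i (_ : Fin 1) => algebraMap A (X.R₂ A) (a i)).map (X.res₂ A) *
          (1 : Matrix (Fin 1) (Fin 1) (X.R₀ A))
      rw [e₁, e₂, Matrix.map_one _ (map_zero _) (map_one _), Matrix.mul_one, Matrix.mul_one,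
        ← col_mul_row, Matrix.mul_assoc, row_mul_col a b hab, Matrix.mul_one] }

/-- The constants at the marked point of isomorphic data are isomorphic. -/
def ofBaseCongr {L L' : Datum X A} (φ : Iso L L') :
    Iso (ofBase X (L.e₁.map (ptEv X A)).transpose
        (IsRankOne.map (ptEv X A).toRingHom L.rank₁).transpose)
      (ofBase X (L'.e₁.map (ptEv X A)).transpose
        (IsRankOne.map (ptEv X A).toRingHom L'.rank₁).transpose) :=
  ofBaseIso _ _ (φ.b₁.map (ptEv X A)).transpose (φ.a₁.map (ptEv X A)).transpose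
    (by rw [← Matrix.transpose_mul, ← Matrix.map_mul, φ.ab₁])
    (by rw [← Matrix.transpose_mul, ← Matrix.map_mul, φ.ba₁])

theorem exists_split {F : Type u} [Field F] {n : ℕ} {E : Matrix (Fin n) (Fin n) F}
    (h : IsRankOne E) : ∃ a b : Fin n → F, b ⬝ᵥ a = 1 ∧ E = Matrix.vecMulVec a b := by
  obtain ⟨l, hl⟩ : ∃ l, E l l ≠ 0 := by
    by_contra! h0
    exact zero_ne_one ((Finset.sum_eq_zero fun i _ => h0 i).symm.trans h.trace)
  refine ⟨fun i => E i l, fun j => E l j / E l l, ?_, Matrix.ext fun i j => ?_⟩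
  · have h2 := congrFun (congrFun h.idem l) l
    rw [Matrix.mul_apply] at h2
    simp only [dotProduct, div_mul_eq_mul_div, ← Finset.sum_div, h2, div_self hl]
  · rw [Matrix.vecMulVec_apply, ← mul_div_assoc, eq_div_iff hl, h.minors i j l l, mul_comm]

/-- The twist trivial at the marked point. -/
def rigTwist (L : Datum X A) : Datum X A :=
  L.tensor (ofBase X (L.e₁.map (ptEv X A)).transpose
    (IsRankOne.map (ptEv X A).toRingHom L.rank₁).transpose)

theorem rigTwist_isRigidifiable (L : Datum X A) : L.rigTwist.IsRigidifiable := by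
  set E := L.e₁.map (ptEv X A)
  have hE : IsRankOne E := IsRankOne.map (ptEv X A).toRingHom L.rank₁
  refine ⟨fun x => E (finProdFinEquiv.symm x).1 (finProdFinEquiv.symm x).2,
    fun x => E (finProdFinEquiv.symm x).2 (finProdFinEquiv.symm x).1, ?_, ?_⟩
  · show ∑ x : Fin (L.n₁ * L.n₁), _ = (1 : A)
    rw [← hE.trace, ← finProdFinEquiv.sum_comp, Fintype.sum_prod_type]
    conv_rhs => rw [← hE.idem]
    simp only [Matrix.trace, Matrix.diag_apply, Matrix.mul_apply]
    refine Finset.sum_congr rfl fun i _ => Finset.sum_congr rfl fun j _ => ?_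
    show E (finProdFinEquiv.symm (finProdFinEquiv (i, j))).2 (finProdFinEquiv.symm (finProdFinEquiv (i, j))).1 *
      E (finProdFinEquiv.symm (finProdFinEquiv (i, j))).1 (finProdFinEquiv.symm (finProdFinEquiv (i, j))).2 = _
    simp only [Equiv.symm_apply_apply]
    exact mul_comm _ _
  · show (kr L.e₁ (E.transpose.map (algebraMap A (X.R₁ A)))).map (ptEv X A) = _
    rw [kr_map, Matrix.map_map, show (ptEv X A ∘ algebraMap A (X.R₁ A)) = id from
      funext ptEv_algebraMap, Matrix.map_id]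
    refine Matrix.ext fun x y => ?_
    obtain ⟨⟨i, j⟩, rfl⟩ := finProdFinEquiv.surjective x
    obtain ⟨⟨l, m⟩, rfl⟩ := finProdFinEquiv.surjective y
    refine (kr_apply E E.transpose i j l m).trans ?_
    show _ = E (finProdFinEquiv.symm (finProdFinEquiv (i, j))).1
        (finProdFinEquiv.symm (finProdFinEquiv (i, j))).2 *
      E (finProdFinEquiv.symm (finProdFinEquiv (l, m))).2
        (finProdFinEquiv.symm (finProdFinEquiv (l, m))).1
    simp only [Equiv.symm_apply_apply, Matrix.transpose_apply]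
    exact hE.minors i l m j

theorem map_rigTwist (L : Datum X A) (f : A →ₐ[k] A') :
    L.rigTwist.map f = (L.map f).rigTwist := by
  unfold rigTwist
  rw [map_tensor, map_ofBase]
  congr 1
  have e : (L.e₁.map (ptEv X A)).transpose.map f =
      ((L.map f).e₁.map (ptEv X A')).transpose := by
    refine Matrix.ext fun i j => ?_
    exact (ptEv_chartMap f _).symm
  simp only [e]
  rfl

theorem nonempty_iso_rigTwist {F : Type u} [Field F] [Algebra k F] (L : Datum X F) :
    Nonempty (Iso L.rigTwist L) := by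
  obtain ⟨a, b, hab, hE⟩ := exists_split
    (IsRankOne.map (ptEv X F).toRingHom L.rank₁).transpose
  exact ⟨((Iso.refl L).tensor (ofBaseIsoOne _ _ a b hab hE)).trans
    ((tensorCommIso _ _).trans (oneTensorIso L))⟩

theorem isRigidifiable_field {F : Type u} [Field F] [Algebra k F] (L : Datum X F) :
    L.IsRigidifiable := by
  obtain ⟨a, b, hab, hE⟩ := exists_split (IsRankOne.map (ptEv X F).toRingHom L.rank₁)
  exact ⟨a, b, hab, hE⟩

theorem base_isRigidifiable {P : X.B₀ →ₐ[k] k} (D : PtData X P) (A : Type u) [CommRing A]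
    [Algebra k A] : (D.base A).IsRigidifiable :=
  D.map_base k (Algebra.ofId k A) ▸ (isRigidifiable_field (D.base k)).map (Algebra.ofId k A)

theorem chi_map_field (L : Datum X k) (K : Type u) [Field K] [Algebra k K] :
    (L.map (Algebra.ofId k K)).chi = L.chi := by
  have hfin : Degree.HasFiniteComplex X k := hasFiniteComplex
  obtain ⟨h1, h2⟩ := hfin L
  haveI := Degree.projective_fixed (A := k) L.rank₁.idem
  haveI := Degree.projective_fixed (A := k) L.rank₂.idem
  haveI := Degree.projective_fixed (A := k) (Degree.e₂_idem L)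
  obtain ⟨g, -, he⟩ := Degree.exists_isLocallyConstant_euler (Degree.dlt L)
  have key : ∀ (F : Type u) [Field F] [Algebra k F],
      (L.map (Algebra.ofId k F)).chi = g ⊥ := fun F _ _ => by
    refine ((Degree.chi_map (K := F) L).trans (he F)).trans ?_
    exact congrArg g (Subsingleton.elim _ _)
  rw [key K, ← key k, show Algebra.ofId k k = AlgHom.id k k from Subsingleton.elim _ _, map_id]

end Datum

namespace PtData

variable {P : X.B₀ →ₐ[k] k}

/-- The inverse of the ideal of a point with its distinguished section. -/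
def dualGen (D : PtData X P) [IsDomain (X.R₁ k)] [IsDomain (X.R₂ k)] : (D.base k).dual.Gen where
  t₁ := incl k X.B₁ ∘ D.q₁
  t₂ := incl k X.B₂ ∘ D.q₂
  fix₁ := by
    refine funext fun i => ?_
    show ((D.f₁.map (incl k X.B₁)).transpose *ᵥ (incl k X.B₁ ∘ D.q₁)) i = _
    rw [Matrix.mulVec_transpose]
    exact ((incl k X.B₁).toRingHom.map_vecMul D.f₁ D.q₁ i).symm.trans
      (congrArg _ (congrFun D.cut₁ i))
  fix₂ := by
    refine funext fun i => ?_
    show ((D.f₂.map (incl k X.B₂)).transpose *ᵥ (incl k X.B₂ ∘ D.q₂)) i = _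
    rw [Matrix.mulVec_transpose]
    exact ((incl k X.B₂).toRingHom.map_vecMul D.f₂ D.q₂ i).symm.trans
      (congrArg _ (congrFun D.cut₂ i))
  ne₁ := fun h => by
    obtain ⟨l, hl⟩ := D.regular₁
    have h1 := congrFun h l
    have h2 : D.q₁ l = 0 := by
      have h1' : (1 : k) ⊗ₜ[k] D.q₁ l = 0 := h1
      simpa using congrArg (Algebra.TensorProduct.lid k X.B₁) h1'
    exact one_ne_zero (α := X.R₁ k) (by
      rw [← map_one (incl k X.B₁), hl 1 (by rw [h2, zero_mul]), map_zero])
  ne₂ := fun h => by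
    obtain ⟨l, hl⟩ := D.regular₂
    have h1 := congrFun h l
    have h2 : D.q₂ l = 0 := by
      have h1' : (1 : k) ⊗ₜ[k] D.q₂ l = 0 := h1
      simpa using congrArg (Algebra.TensorProduct.lid k X.B₂) h1'
    exact one_ne_zero (α := X.R₂ k) (by
      rw [← map_one (incl k X.B₂), hl 1 (by rw [h2, zero_mul]), map_zero])
  glue := by
    have h : (X.ι₁ ∘ D.q₁) ᵥ* D.v = X.ι₂ ∘ D.q₂ := by
      rw [← D.compat, Matrix.vecMul_vecMul, D.uv]
      exact funext fun i => (X.ι₂.toRingHom.map_vecMul D.f₂ D.q₂ i).symm.trans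
        (congrArg _ (congrFun D.cut₂ i))
    refine funext fun i => ?_
    show ((D.v.map (incl k X.B₀)).transpose *ᵥ (X.res₁ k ∘ incl k X.B₁ ∘ D.q₁)) i = _
    rw [Matrix.mulVec_transpose, show X.res₁ k ∘ incl k X.B₁ ∘ D.q₁ = incl k X.B₀ ∘ X.ι₁ ∘ D.q₁ from
      funext fun l => res₁_incl k _]
    exact ((incl k X.B₀).toRingHom.map_vecMul D.v (X.ι₁ ∘ D.q₁) i).symm.trans
      ((congrArg _ (congrFun h i)).trans (res₂_incl k _).symm)

theorem mem_ker_iff {B : Type u} [CommRing B] [Algebra k B] {m : ℕ} (χ : B →ₐ[k] k)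
    (q : Fin m → B) (hq : ∀ x, x ∈ Ideal.span (Set.range q) ↔ χ x = 0) :
    Ideal.span (Set.range ((incl k B : B →ₐ[k] k ⊗[k] B) ∘ q)) =
      RingHom.ker (Charts.ptEval χ) :=
  Ideal.ext fun x => (mem_span_incl χ q hq x).trans (Iff.of_eq (congrArg (fun f => f x = 0)
    (show Algebra.TensorProduct.lift (AlgHom.id k k) ((Algebra.ofId k k).comp χ)
      (fun _ _ => Commute.all _ _) = Charts.ptEval χ from
        Algebra.TensorProduct.ext' fun a b => by simp [Charts.ptEval])))

/-- A datum with the ideals of the point is the inverse of the ideal of the point. -/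
theorem nonempty_iso_of_gen (D : PtData X P) [IsDomain (X.R₁ k)] [IsDomain (X.R₂ k)]
    [IsDomain (X.R₀ k)] {L : Datum X k} (g : L.Gen)
    (h₁ : g.ideal₁ = RingHom.ker (Charts.ptEval (P.comp X.ι₁)))
    (h₂ : g.ideal₂ = RingHom.ker (Charts.ptEval (P.comp X.ι₂))) :
    Nonempty (Datum.Iso L (D.base k).dual) :=
  Datum.Gen.nonempty_iso (Charts.res₁_injective X k X.isFree) g D.dualGen
    (h₁.trans (mem_ker_iff _ _ D.span₁).symm) (h₂.trans (mem_ker_iff _ _ D.span₂).symm)

end PtData

namespace Charts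

/-- The rigidified families of points, of degree zero. -/
theorem exists_abel [IsAlgClosed k] [IsDomain (X.B₀ ⊗[k] X.B₀)] [Nontrivial X.B₁] [Nontrivial X.B₂]
    (h₁ : GoodChart k X.B₁) (h₂ : GoodChart k X.B₂) (D : ∀ P : X.B₀ →ₐ[k] k, PtData X P)
    (P₀ : X.B₀ →ₐ[k] k) :
    ∃ (x₁ : Cls X X.B₁) (x₂ : Cls X X.B₂),
      (∃ L : RigDatum X X.B₁, Quot.mk _ L = x₁ ∧ L.1.IsDegZero) ∧
      (∃ L : RigDatum X X.B₂, Quot.mk _ L = x₂ ∧ L.1.IsDegZero) ∧
      Cls.map X.ι₁ x₁ = Cls.map X.ι₂ x₂ ∧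
      ∀ P : X.B₀ →ₐ[k] k, Cls.map (P.comp X.ι₁) x₁ =
        (Cls.of ⟨(D P).base k, Datum.base_isRigidifiable (D P) k⟩)⁻¹ *
          Cls.of ⟨(D P₀).base k, Datum.base_isRigidifiable (D P₀) k⟩ := by
  obtain ⟨L₁, L₂, hiso, hval⟩ := X.exists_pointFamily h₁ h₂
  haveI : Nontrivial X.B₀ := X.ι₁_injective.nontrivial
  haveI : IsDomain X.B₀ := (Algebra.TensorProduct.includeLeft_injective
    (R := k) (S := k) (algebraMap k X.B₀).injective).isDomain
      (Algebra.TensorProduct.includeLeft : X.B₀ →ₐ[k] X.B₀ ⊗[k] X.B₀).toRingHom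
  haveI : IsDomain X.B₁ := X.ι₁_injective.isDomain X.ι₁.toRingHom
  haveI : IsDomain X.B₂ := X.ι₂_injective.isDomain X.ι₂.toRingHom
  haveI : IsNoetherianRing X.B₁ := Algebra.FiniteType.isNoetherianRing k X.B₁ (h := X.finiteType₁)
  haveI : IsNoetherianRing X.B₂ := Algebra.FiniteType.isNoetherianRing k X.B₂ (h := X.finiteType₂)
  haveI : IsDomain (X.R₁ k) := (Algebra.TensorProduct.lid k X.B₁).toMulEquiv.isDomain
  haveI : IsDomain (X.R₂ k) := (Algebra.TensorProduct.lid k X.B₂).toMulEquiv.isDomain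
  haveI : IsDomain (X.R₀ k) := (Algebra.TensorProduct.lid k X.B₀).toMulEquiv.isDomain
  let T : ∀ (A : Type u) [CommRing A] [Algebra k A], Datum X A → Datum X A :=
    fun A _ _ L => L.rigTwist.tensor ((D P₀).base A)
  have hT : ∀ {A A' : Type u} [CommRing A] [Algebra k A] [CommRing A'] [Algebra k A']
      (L : Datum X A) (f : A →ₐ[k] A'), (T A L).map f = T A' (L.map f) := fun L f => by
    simp only [T]
    rw [Datum.map_tensor, Datum.map_rigTwist, PtData.map_base]
  have hrig : ∀ {A : Type u} [CommRing A] [Algebra k A] (L : Datum X A),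
      (T A L).IsRigidifiable := fun L =>
    L.rigTwist_isRigidifiable.tensor (Datum.base_isRigidifiable _ _)
  have hTiso : ∀ {L L' : Datum X X.B₀}, Nonempty (Datum.Iso L L') →
      (Quot.mk _ ⟨T _ L, hrig L⟩ : Cls X X.B₀) = Quot.mk _ ⟨T _ L', hrig L'⟩ :=
    fun {L L'} ⟨φ⟩ => Quot.sound ⟨(φ.tensor (Datum.ofBaseCongr φ)).tensor (Datum.Iso.refl _)⟩
  -- the value at a point
  have hpt : ∀ P : X.B₀ →ₐ[k] k, Nonempty (Datum.Iso (T k (L₁.map (P.comp X.ι₁)))
      (((D P).base k).dual.tensor ((D P₀).base k))) := fun P => by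
    obtain ⟨g, hg₁, hg₂⟩ := hval P
    obtain ⟨φ⟩ := (D P).nonempty_iso_of_gen g hg₁ hg₂
    obtain ⟨ψ⟩ := Datum.nonempty_iso_rigTwist (L₁.map (P.comp X.ι₁))
    rw [← Datum.map_comp] at φ
    exact ⟨(ψ.trans φ).tensor (Datum.Iso.refl _)⟩
  have hchi : ∀ P : X.B₀ →ₐ[k] k, (T k (L₁.map (P.comp X.ι₁))).chi = (Datum.one X k).chi :=
    fun P => by
    rw [Degree.chi_eq_of_iso (hpt P).some, PtData.chi_tensor]
    have h := (D P).chi_tensor ((D P).base k).dual
    rw [Degree.chi_eq_of_iso ((Datum.tensorCommIso _ _).trans (Datum.tensorDualIso _))] at h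
    omega
  have hdeg : ∀ {B : Type u} [CommRing B] [Algebra k B] [IsNoetherianRing B] [IsDomain B]
      (ι : B →ₐ[k] X.B₀) (L : Datum X B), (T k (L.map (P₀.comp ι))).chi = (Datum.one X k).chi → (T B L).IsDegZero := by
    intro B _ _ _ _ ι L h K _ _ _ φ
    rw [Degree.chi_map_eq_of_irreducible hasFiniteComplex (T B L) φ
      ((Algebra.ofId k K).comp (P₀.comp ι)), Datum.map_comp, hT L (P₀.comp ι),
      Datum.chi_map_field, h, ← Datum.chi_map_field (Datum.one X k) K, Datum.map_one']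
  refine ⟨Quot.mk _ ⟨T _ L₁, hrig L₁⟩, Quot.mk _ ⟨T _ L₂, hrig L₂⟩,
    ⟨⟨T _ L₁, hrig L₁⟩, rfl, hdeg X.ι₁ L₁ (hchi P₀)⟩,
    ⟨⟨T _ L₂, hrig L₂⟩, rfl, hdeg X.ι₂ L₂ ?_⟩, ?_, fun P => ?_⟩
  · obtain ⟨φ⟩ := hiso
    have e := Degree.chi_eq_of_iso (((φ.map P₀).tensor (Datum.ofBaseCongr (φ.map P₀))).tensor
      (Datum.Iso.refl ((D P₀).base k)))
    rw [Datum.map_comp]
    refine e.symm.trans ?_
    rw [← Datum.map_comp]
    exact hchi P₀
  · have e1 : Cls.map X.ι₁ (Quot.mk _ ⟨T _ L₁, hrig L₁⟩) =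
        Quot.mk _ ⟨T _ (L₁.map X.ι₁), hrig _⟩ := congrArg (Quot.mk _) (Subtype.ext (hT L₁ X.ι₁))
    have e2 : Cls.map X.ι₂ (Quot.mk _ ⟨T _ L₂, hrig L₂⟩) =
        Quot.mk _ ⟨T _ (L₂.map X.ι₂), hrig _⟩ := congrArg (Quot.mk _) (Subtype.ext (hT L₂ X.ι₂))
    rw [e1, e2, hTiso hiso]
  · refine (congrArg (Quot.mk _) (Subtype.ext (hT L₁ (P.comp X.ι₁)))).trans
      (Quot.sound ?_ : (Quot.mk _ ⟨T k (L₁.map (P.comp X.ι₁)), hrig _⟩ : Cls X k) = _)
    exact hpt P

end Charts

end FLTAgent.PicScheme
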