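import Fermat.Agent.PicScheme.Abel.Family
import Fermat.Agent.PicScheme.Basic

/-!
# The family of points over the overlap and at a point
-/

set_option autoImplicit false
set_option linter.style.haveILetI false

noncomputable section

universe u

open TensorProduct Matrix
open scoped TensorProduct

namespace FLTAgent.PicScheme

variable {k : Type u} [Field k]

namespace Charts

variable {X : Charts k} {A A' : Type u} [CommRing A] [Algebra k A] [CommRing A'] [Algebra k A']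

theorem tensor_chartMap_injective (X : Charts k) {B' : Type u} [CommRing B'] [Algebra k B']
    (φ : B' →ₐ[k] X.B₀) (hφ : Function.Injective φ) (B : Type u) [CommRing B] [Algebra k B] :
    Function.Injective (Datum.chartMap B φ) :=
  Module.Flat.rTensor_preserves_injective_linearMap φ.toLinearMap hφ

/-- Evaluation of a chart over `k` at a point. -/
def ptEval {B : Type u} [CommRing B] [Algebra k B] (b : B →ₐ[k] k) : k ⊗[k] B →ₐ[k] k :=
  Algebra.TensorProduct.lift (AlgHom.id k k) b fun _ _ => Commute.all _ _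

theorem graph_chartMap (φ : A →ₐ[k] A') (ψ : A' →ₐ[k] X.B₀) (x : X.R₀ A) :
    X.graph ψ (Datum.chartMap X.B₀ φ x) = X.graph (ψ.comp φ) x := by
  induction x using TensorProduct.induction_on with
  | zero => simp
  | tmul a b => simp [graph, Datum.chartMap]
  | add a b ha hb => simp [ha, hb]

theorem ptEval_chartMap₀ (a : X.B₀ →ₐ[k] k) (x : X.R₀ X.B₀) :
    ptEval a (Datum.chartMap X.B₀ a x) = a (X.graph (AlgHom.id k X.B₀) x) := by
  induction x using TensorProduct.induction_on with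
  | zero => simp
  | tmul s b => simp [graph, ptEval, Datum.chartMap]
  | add s b hs hb => simp [hs, hb]

theorem ptEval_res₁ (a : X.B₀ →ₐ[k] k) (x : X.R₁ k) :
    ptEval a (X.res₁ k x) = ptEval (a.comp X.ι₁) x := by
  induction x using TensorProduct.induction_on with
  | zero => simp
  | tmul s b => simp [ptEval, Charts.res₁]
  | add s b hs hb => simp [hs, hb]

theorem ptEval_res₂ (a : X.B₀ →ₐ[k] k) (x : X.R₂ k) :
    ptEval a (X.res₂ k x) = ptEval (a.comp X.ι₂) x := by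
  induction x using TensorProduct.induction_on with
  | zero => simp
  | tmul s b => simp [ptEval, Charts.res₂]
  | add s b hs hb => simp [hs, hb]

/-- Elements over a localisation of the base are, up to units, defined over the base. -/
theorem exists_chartMap {B' B : Type u} [CommRing B'] [Algebra k B'] [CommRing B] [Algebra k B]
    (ι : B' →ₐ[k] X.B₀) (f : B')
    (h : letI := ι.toRingHom.toAlgebra; IsLocalization.Away f X.B₀) (y : X.B₀ ⊗[k] B) :
    ∃ (N : ℕ) (x : B' ⊗[k] B), (ι f ⊗ₜ[k] (1 : B)) ^ N * y = Datum.chartMap B ι x := by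
  induction y using TensorProduct.induction_on with
  | zero => exact ⟨0, 0, by simp⟩
  | tmul c b =>
    letI := ι.toRingHom.toAlgebra
    haveI := h
    obtain ⟨⟨z, ⟨_, N, rfl⟩⟩, hz⟩ := IsLocalization.surj (Submonoid.powers f) c
    refine ⟨N, z ⊗ₜ b, ?_⟩
    simp only [Datum.chartMap, Algebra.TensorProduct.map_tmul, AlgHom.id_apply,
      Algebra.TensorProduct.tmul_pow, one_pow, Algebra.TensorProduct.tmul_mul_tmul, one_mul]
    congr 1
    rw [mul_comm, ← map_pow]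
    exact hz
  | add y y' hy hy' =>
    obtain ⟨N, x, hx⟩ := hy
    obtain ⟨N', x', hx'⟩ := hy'
    refine ⟨N + N', (f ⊗ₜ (1 : B)) ^ N' * x + (f ⊗ₜ (1 : B)) ^ N * x', ?_⟩
    have hf : Datum.chartMap B ι (f ⊗ₜ (1 : B)) = ι f ⊗ₜ 1 := by simp [Datum.chartMap]
    rw [map_add, map_mul, map_mul, map_pow, map_pow, ← hx, ← hx', hf]
    ring

theorem isUnit_ι₁_f : IsUnit (X.ι₁ X.f) := IsUnit.of_mul_eq_one _ X.mul_eq_one

theorem isUnit_ι₂_g : IsUnit (X.ι₂ X.g) := IsUnit.of_mul_eq_one _ ((mul_comm _ _).trans X.mul_eq_one)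

theorem map_comap_eq {B' B : Type u} [CommRing B'] [Algebra k B'] [CommRing B] [Algebra k B]
    (ι : B' →ₐ[k] X.B₀) (f : B')
    (h : letI := ι.toRingHom.toAlgebra; IsLocalization.Away f X.B₀) (hf : IsUnit (ι f))
    (J' : Ideal (X.B₀ ⊗[k] B)) :
    (J'.comap (Datum.chartMap B ι)).map (Datum.chartMap B ι) = J' := by
  refine le_antisymm Ideal.map_comap_le fun y hy => ?_
  obtain ⟨N, x, hx⟩ := exists_chartMap ι f h y
  have hu : IsUnit ((ι f ⊗ₜ[k] (1 : B)) ^ N) :=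
    (hf.map (Algebra.TensorProduct.includeLeft (R := k) (S := k) (A := X.B₀) (B := B))).pow N
  refine (Ideal.unit_mul_mem_iff_mem _ hu).1 (hx ▸ Ideal.mem_map_of_mem _ (Ideal.mem_comap.2 ?_))
  exact hx ▸ J'.mul_mem_left _ hy

theorem comap_J₁ (φ : A →ₐ[k] A') (ψ : A' →ₐ[k] X.B₀) :
    (X.J₁ ψ).comap (Datum.chartMap X.B₁ φ) = X.J₁ (ψ.comp φ) := Ideal.ext fun x => by
  rw [Ideal.mem_comap, mem_J₁, mem_J₁, ← Datum.chartMap_res₁, graph_chartMap]

theorem comap_J₂ (φ : A →ₐ[k] A') (ψ : A' →ₐ[k] X.B₀) :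
    (X.J₂ ψ).comap (Datum.chartMap X.B₂ φ) = X.J₂ (ψ.comp φ) := Ideal.ext fun x => by
  rw [Ideal.mem_comap, mem_J₂, mem_J₂, ← Datum.chartMap_res₂, graph_chartMap]

/-- The image of the diagonal at a point is the ideal of the point. -/
theorem map_J₁_point (a : X.B₀ →ₐ[k] k) :
    (X.J₁ (AlgHom.id k X.B₀)).map (Datum.chartMap X.B₁ a) =
      RingHom.ker (ptEval (a.comp X.ι₁)) := by
  refine le_antisymm (Ideal.map_le_iff_le_comap.2 fun x hx => ?_) fun y hy => ?_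
  · rw [Ideal.mem_comap, RingHom.mem_ker, ← ptEval_res₁, ← Datum.chartMap_res₁, ptEval_chartMap₀,
      mem_J₁.1 hx, map_zero]
  · obtain ⟨h, rfl⟩ := (Algebra.TensorProduct.lid k X.B₁).symm.surjective y
    rw [Algebra.TensorProduct.lid_symm_apply, RingHom.mem_ker] at hy
    simp [ptEval] at hy
    rw [Algebra.TensorProduct.lid_symm_apply]
    have hm : X.ι₁ h ⊗ₜ[k] (1 : X.B₁) - (1 : X.B₀) ⊗ₜ h ∈ X.J₁ (AlgHom.id k X.B₀) := by
      rw [mem_J₁, map_sub, map_sub, graph_res₁_tmul, graph_res₁_tmul]; simp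
    have h1 := neg_mem (Ideal.mem_map_of_mem (Datum.chartMap X.B₁ a) hm)
    simpa [Datum.chartMap, hy] using h1

/-- The image of the diagonal at a point is the ideal of the point. -/
theorem map_J₂_point (a : X.B₀ →ₐ[k] k) :
    (X.J₂ (AlgHom.id k X.B₀)).map (Datum.chartMap X.B₂ a) =
      RingHom.ker (ptEval (a.comp X.ι₂)) := by
  refine le_antisymm (Ideal.map_le_iff_le_comap.2 fun x hx => ?_) fun y hy => ?_
  · rw [Ideal.mem_comap, RingHom.mem_ker, ← ptEval_res₂, ← Datum.chartMap_res₂, ptEval_chartMap₀,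
      mem_J₂.1 hx, map_zero]
  · obtain ⟨h, rfl⟩ := (Algebra.TensorProduct.lid k X.B₂).symm.surjective y
    rw [Algebra.TensorProduct.lid_symm_apply, RingHom.mem_ker] at hy
    simp [ptEval] at hy
    rw [Algebra.TensorProduct.lid_symm_apply]
    have hm : X.ι₂ h ⊗ₜ[k] (1 : X.B₂) - (1 : X.B₀) ⊗ₜ h ∈ X.J₂ (AlgHom.id k X.B₀) := by
      rw [mem_J₂, map_sub, map_sub, graph_res₂_tmul, graph_res₂_tmul]; simp
    have h1 := neg_mem (Ideal.mem_map_of_mem (Datum.chartMap X.B₂ a) hm)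
    simpa [Datum.chartMap, hy] using h1

theorem ker_ptEval_ne_bot {B : Type u} [CommRing B] [Algebra k B] (b : B →ₐ[k] k) (x : B)
    (hx : ∀ c : k, x ≠ algebraMap k B c) : RingHom.ker (ptEval b) ≠ ⊥ := fun h => by
  have hm : ((1 : k) ⊗ₜ[k] (x - algebraMap k B (b x)) : k ⊗[k] B) ∈ RingHom.ker (ptEval b) := by
    simp [RingHom.mem_ker, ptEval]
  rw [h, Submodule.mem_bot] at hm
  exact hx (b x) (sub_eq_zero.1 (by
    simpa only [Algebra.TensorProduct.lid_tmul, one_smul, map_zero] using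
      congrArg (Algebra.TensorProduct.lid k B) hm))

end Charts

variable {X : Charts k}

namespace Datum

theorem Gen.fun_ne₁ {A : Type u} [CommRing A] [Algebra k A] {L : Datum X A} (g : L.Gen)
    {A' : Type u} [CommRing A'] [Algebra k A'] (φ : A →ₐ[k] A')
    (h : g.ideal₁.map (chartMap X.B₁ φ) ≠ ⊥) : chartMap X.B₁ φ ∘ g.t₁ ≠ 0 := fun h0 => h (by
  rw [Gen.ideal₁, Ideal.map_span, ← Set.range_comp, Ideal.span_eq_bot]
  rintro _ ⟨i, rfl⟩
  exact congrFun h0 i)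

theorem Gen.fun_ne₂ {A : Type u} [CommRing A] [Algebra k A] {L : Datum X A} (g : L.Gen)
    {A' : Type u} [CommRing A'] [Algebra k A'] (φ : A →ₐ[k] A')
    (h : g.ideal₂.map (chartMap X.B₂ φ) ≠ ⊥) : chartMap X.B₂ φ ∘ g.t₂ ≠ 0 := fun h0 => h (by
  rw [Gen.ideal₂, Ideal.map_span, ← Set.range_comp, Ideal.span_eq_bot]
  rintro _ ⟨i, rfl⟩
  exact congrFun h0 i)

theorem Gen.fun_ne_of_injective {R S : Type u} [CommRing R] [CommRing S] (φ : R →+* S)
    (hφ : Function.Injective φ) {n : ℕ} {t : Fin n → R} (ht : t ≠ 0) : φ ∘ t ≠ 0 := fun h =>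
  ht (funext fun i => hφ ((congrFun h i).trans (map_zero φ).symm))

end Datum

namespace Charts

/-- The two families agree on the overlap, and their value at a point is the ideal of the point. -/
theorem exists_pointFamily [IsDomain (X.B₀ ⊗[k] X.B₀)] [Nontrivial X.B₁] [Nontrivial X.B₂]
    (h₁ : GoodChart k X.B₁) (h₂ : GoodChart k X.B₂) :
    ∃ (L₁ : Datum X X.B₁) (L₂ : Datum X X.B₂),
      Nonempty (Datum.Iso (L₁.map X.ι₁) (L₂.map X.ι₂)) ∧
      ∀ a : X.B₀ →ₐ[k] k, ∃ g : ((L₁.map X.ι₁).map a).Gen,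
        g.ideal₁ = RingHom.ker (ptEval (a.comp X.ι₁)) ∧
        g.ideal₂ = RingHom.ker (ptEval (a.comp X.ι₂)) := by
  obtain ⟨L₁, g₁, a₁, b₁⟩ := X.exists_datum₁ h₁
  obtain ⟨L₂, g₂, a₂, b₂⟩ := X.exists_datum₂ h₂
  haveI := X.isDomain_tensor (AlgHom.id k X.B₀) X.ι₁ Function.injective_id X.ι₁_injective
  haveI := X.isDomain_tensor (AlgHom.id k X.B₀) X.ι₂ Function.injective_id X.ι₂_injective
  let G₁ := g₁.map X.ι₁
    (Datum.Gen.fun_ne_of_injective (Datum.chartMap X.B₁ X.ι₁).toRingHom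
      (X.tensor_chartMap_injective X.ι₁ X.ι₁_injective X.B₁) g₁.ne₁)
    (Datum.Gen.fun_ne_of_injective (Datum.chartMap X.B₂ X.ι₁).toRingHom
      (X.tensor_chartMap_injective X.ι₁ X.ι₁_injective X.B₂) g₁.ne₂)
  let G₂ := g₂.map X.ι₂
    (Datum.Gen.fun_ne_of_injective (Datum.chartMap X.B₁ X.ι₂).toRingHom
      (X.tensor_chartMap_injective X.ι₂ X.ι₂_injective X.B₁) g₂.ne₁)
    (Datum.Gen.fun_ne_of_injective (Datum.chartMap X.B₂ X.ι₂).toRingHom
      (X.tensor_chartMap_injective X.ι₂ X.ι₂_injective X.B₂) g₂.ne₂)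
  have c₁ : G₁.ideal₁ = X.J₁ (AlgHom.id k X.B₀) := by
    rw [Datum.Gen.map_ideal₁, a₁, ← map_comap_eq X.ι₁ X.f X.away₁ isUnit_ι₁_f
      (X.J₁ (AlgHom.id k X.B₀)), comap_J₁, AlgHom.id_comp]
  have d₁ : G₁.ideal₂ = X.J₂ (AlgHom.id k X.B₀) := by
    rw [Datum.Gen.map_ideal₂, b₁, ← map_comap_eq X.ι₁ X.f X.away₁ isUnit_ι₁_f
      (X.J₂ (AlgHom.id k X.B₀)), comap_J₂, AlgHom.id_comp]
  have c₂ : G₂.ideal₁ = X.J₁ (AlgHom.id k X.B₀) := by
    rw [Datum.Gen.map_ideal₁, a₂, ← map_comap_eq X.ι₂ X.g X.away₂ isUnit_ι₂_g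
      (X.J₁ (AlgHom.id k X.B₀)), comap_J₁, AlgHom.id_comp]
  have d₂ : G₂.ideal₂ = X.J₂ (AlgHom.id k X.B₀) := by
    rw [Datum.Gen.map_ideal₂, b₂, ← map_comap_eq X.ι₂ X.g X.away₂ isUnit_ι₂_g
      (X.J₂ (AlgHom.id k X.B₀)), comap_J₂, AlgHom.id_comp]
  refine ⟨L₁, L₂, Datum.Gen.nonempty_iso (res₁_injective X _ X.isFree) G₁ G₂
    (c₁.trans c₂.symm) (d₁.trans d₂.symm), fun a => ?_⟩
  have e₁ : G₁.ideal₁.map (Datum.chartMap X.B₁ a) = RingHom.ker (ptEval (a.comp X.ι₁)) := by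
    rw [c₁, map_J₁_point]
  have e₂ : G₁.ideal₂.map (Datum.chartMap X.B₂ a) = RingHom.ker (ptEval (a.comp X.ι₂)) := by
    rw [d₁, map_J₂_point]
  let G := G₁.map a (G₁.fun_ne₁ a (e₁ ▸ ker_ptEval_ne_bot _ X.f (ne_const_of_free X.f X.free₁)))
    (G₁.fun_ne₂ a (e₂ ▸ ker_ptEval_ne_bot _ X.g (ne_const_of_free X.g X.free₂)))
  exact ⟨G, (Datum.Gen.map_ideal₁ ..).trans e₁, (Datum.Gen.map_ideal₂ ..).trans e₂⟩

end Charts

end FLTAgent.PicScheme
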